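/-
S44 / F / Dual / Dim (helper227).  The statement of the node (BRIDGE) (owner helper185):
an element of `L(m ∞)` is realised by a holomorphic `Γ₀(M)`-invariant function on the upper half plane with the
same principal part at `i∞`, bounded at all the other cusps: exactly the hypotheses of
`I1.const_term_vanishes`.
-/
import Fermat.Agent.S44.F.Dual.Defs
import Fermat.Agent.S44.F.I1.Defs
import Fermat.Agent.S24.Analytic.Defs

set_option autoImplicit false

noncomputable section

namespace Fermat.Agent.S44.F.Dim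

open ModularCurve AlgebraicCurve Fermat.Agent.S24 Fermat.Agent.GAL
open UpperHalfPlane CongruenceSubgroup
open scoped MatrixGroups Manifold

/-- **(BRIDGE)** -/
def Bridge : Prop :=
  ∀ (M : ℕ) [NeZero M] (m : ℕ) (b : FN M), b ∈ Linf M m →
    ∃ β : ℍ → ℂ, MDiff β ∧ (∀ γ ∈ Gamma0 M, ∀ τ, β (γ • τ) = β τ) ∧
      IsBoundedAtImInfty (fun τ => β τ - ∑ n ∈ Finset.Icc 1 m,
        iota ((b : LaurentSeries Kbar).coeff (-(n : ℤ))) * I1.qq τ ^ (-(n : ℤ))) ∧
      ∀ γ : SL(2, ℤ), γ ∉ Gamma0 M → IsBoundedAtImInfty (fun τ => β (γ • τ))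

end Fermat.Agent.S44.F.Dim

end
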