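/-
S44 / F / Dual / Dim (helper227).  Node (RR): `m ≤ dim (principal parts of L(m ∞)) + g`.

Riemann's inequality for `D = m ∞` and: an element of `L(m ∞)` without principal part is constant.
-/
import Fermat.Agent.S44.F.Dual.NodesA
import Fermat.Agent.S27.RiemannI
import Fermat.Agent.S24.Export.Ramification
import Fermat.Agent.S24.Formal

set_option autoImplicit false

noncomputable section

namespace Fermat.Agent.S44.F.Dim

open ModularCurve AlgebraicCurve Fermat.Agent.S24 Fermat.Agent.S24.FF Fermat.Agent.GAL Module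

/-- the principal part, as a linear map -/
def ppLin (M m : ℕ) : FN M →ₗ[Kbar] (Fin m → Kbar) where
  toFun b := pp M m b
  map_add' a b := by
    funext i
    rfl
  map_smul' c b := by
    funext i
    show ((c • b : FN M) : LaurentSeries Kbar).coeff _ = c * (b : LaurentSeries Kbar).coeff _
    rw [Algebra.smul_def]
    show (algebraMap Kbar (LaurentSeries Kbar) c * (b : LaurentSeries Kbar)).coeff _ = _
    rw [algebraMap_laurentSeries_eq_single, HahnSeries.coeff_single_zero_mul]

@[simp] theorem ppLin_apply (M m : ℕ) (b : FN M) : ppLin M m b = pp M m b := rfl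

/-- the expansion of an element of `L(m ∞)` starts in degree `≥ -m` -/
theorem coeff_eq_zero_of_lt {M m : ℕ} {b : FN M} (hb : b ∈ Linf M m) (i : ℤ) (hi : i < -(m : ℤ)) :
    (b : LaurentSeries Kbar).coeff i = 0 := by
  have h := mem_riemannRochSpace_iff.mp hb (S17.W.cusp M)
  rw [Finsupp.single_eq_same] at h
  by_cases h0 : b = 0
  · rw [h0]
    rfl
  · have h1 := h.resolve_left h0
    rw [S17.W.ord_cusp M _ h0] at h1
    exact HahnSeries.coeff_eq_zero_of_lt_order (lt_of_lt_of_le hi h1)

/-- an element of `L(m ∞)` without principal part is constant -/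
theorem const_of_pp_eq_zero {M : ℕ} [NeZero M] {m : ℕ} {b : FN M} (hb : b ∈ Linf M m)
    (hpp : pp M m b = 0) : ∃ c : Kbar, b = algebraMap Kbar (FN M) c := by
  have := Export.isFF1 M
  apply S27.eq_algebraMap_of_forall_ord_nonneg
  intro v
  by_cases h0 : b = 0
  · rw [h0]
    simp [Place.ord]
  by_cases hv : v = S17.W.cusp M
  · subst hv
    rw [S17.W.ord_cusp M _ h0]
    have h0' : (b : LaurentSeries Kbar) ≠ 0 := fun h => h0 (Subtype.ext h)
    by_contra hlt
    rw [not_le] at hlt
    apply h0'
    apply HahnSeries.coeff_order_eq_zero.mp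
    set n := (b : LaurentSeries Kbar).order with hn
    by_cases hnm : n < -(m : ℤ)
    · exact coeff_eq_zero_of_lt hb n hnm
    · rw [not_lt] at hnm
      have hk : (-n - 1).toNat < m := by omega
      have h1 := congrFun hpp ⟨(-n - 1).toNat, hk⟩
      have h2 : -((((⟨(-n - 1).toNat, hk⟩ : Fin m) : ℕ) : ℤ) + 1) = n := by
        show -((((-n - 1).toNat : ℕ) : ℤ) + 1) = n
        omega
      simp only [pp, Pi.zero_apply] at h1
      rw [h2] at h1
      exact h1
  · have h := (mem_riemannRochSpace_iff.mp hb v).resolve_left h0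
    rw [Finsupp.single_eq_of_ne (by exact hv)] at h
    simpa using h

theorem le_finrank_map_ppLin_add_genus (M : ℕ) [NeZero M] (m : ℕ) :
    m ≤ finrank Kbar ((Linf M m).map (ppLin M m)) + genusFF Kbar (FN M) := by
  have := Export.isFF1 M
  have : S27.NonConst Kbar (FN M) := ⟨⟨jF M, Formal.transcendental_jF M⟩⟩
  have hfin : Module.Finite Kbar (Linf M m) := S27.finite_riemannRochSpace _
  have hR := S27.finrank_riemannRochSpace_sub_finrank_H1
    (Finsupp.single (S17.W.cusp M) (m : ℤ) : Divisor Kbar (FN M))
  rw [Divisor.degree_single, deg_eq_one] at hR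
  let φ : Linf M m →ₗ[Kbar] (Fin m → Kbar) := (ppLin M m).domRestrict (Linf M m)
  have hrange : LinearMap.range φ = (Linf M m).map (ppLin M m) :=
    LinearMap.range_domRestrict _ _
  have hrn := LinearMap.finrank_range_add_finrank_ker φ
  rw [hrange] at hrn
  have hker : finrank Kbar (LinearMap.ker φ) ≤ 1 := by
    let ψ : LinearMap.ker φ →ₗ[Kbar] FN M := (Linf M m).subtype ∘ₗ (LinearMap.ker φ).subtype
    have hψ : Function.Injective ψ :=
      (Submodule.injective_subtype _).comp (Submodule.injective_subtype _)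
    have h1 : LinearMap.range ψ ≤ Submodule.span Kbar {(1 : FN M)} := by
      rintro _ ⟨x, rfl⟩
      obtain ⟨c, hc⟩ := const_of_pp_eq_zero x.1.2 (LinearMap.mem_ker.1 x.2)
      rw [Submodule.mem_span_singleton]
      refine ⟨c, ?_⟩
      show _ = (x.1 : FN M)
      rw [hc, Algebra.smul_def, mul_one]
    calc finrank Kbar (LinearMap.ker φ) = finrank Kbar (LinearMap.range ψ) :=
          (LinearMap.finrank_range_of_inj hψ).symm
      _ ≤ finrank Kbar (Submodule.span Kbar {(1 : FN M)}) := Submodule.finrank_mono h1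
      _ ≤ 1 := by
          rw [finrank_span_singleton one_ne_zero]
  have hL : finrank Kbar (Linf M m) =
      finrank Kbar (riemannRochSpace (Finsupp.single (S17.W.cusp M) (m : ℤ))) := rfl
  rw [← hL] at hR
  have hH : (0 : ℤ) ≤ finrank Kbar (H1 (Finsupp.single (S17.W.cusp M) (m : ℤ) :
      Divisor Kbar (FN M))) := Int.natCast_nonneg _
  omega

end Fermat.Agent.S44.F.Dim

end
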