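/-
S44 / F / Dual / Dim (helper227).  **(BRIDGE)**: assembly from the leaves B1, B3, B4, B5 of helper102's block
(`S44/F/Dim/Bridge/*`) and the tools of `GAL/GenusBridge`.
-/
import Fermat.Agent.S44.F.Dual.Dim.BridgeDef
import Fermat.Agent.S44.F.Dual.Dim.RR
import Fermat.Agent.S44.F.Dim.Bridge.Val
import Fermat.Agent.S44.F.Dim.Bridge.CuspNe
import Fermat.Agent.S44.F.Dim.Bridge.Bdd
import Fermat.Agent.S44.F.Dim.Bridge.Polar
import Fermat.Agent.GAL.GenusBridge.Main

set_option autoImplicit false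

noncomputable section

namespace Fermat.Agent.S44.F.Dim

open ModularCurve AlgebraicCurve Fermat.Agent.S24 Fermat.Agent.S24.B Fermat.Agent.S24.FF
  Fermat.Agent.S27.Riemann Fermat.Agent.GAL Fermat.Agent.GAL.GenusBridge
open UpperHalfPlane CongruenceSubgroup
open scoped MatrixGroups Manifold

variable {M : ℕ} [NeZero M]

/-- `j` has a pole at the cusp. -/
theorem jF_not_mem_cusp : jF M ∉ (S17.W.cusp M).toValuationSubring := by
  intro h
  have h1 := (S17.W.mem_cusp_iff M (jF M)).1 h (-1) (by norm_num)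
  have hj : ((jF M : FN M) : LaurentSeries Kbar) = Jser 1 := rfl
  rw [hj] at h1
  have h2 : (Jser 1 : LaurentSeries Kbar) ≠ 0 := Jser_one_ne_zero
  apply h2
  apply HahnSeries.coeff_order_eq_zero.mp
  rw [order_Jser_one]
  exact h1

/-- (B2) an element of `L(m ∞)` has no pole in the upper half plane. -/
theorem ordAt_le_of_mem {m : ℕ} (f : FN M) (hf : f ∈ Linf M m)
    (a b : AL M) (hb : b ≠ 0)
    (hab : Psi M f * algebraMap (AL M) (LN M) b = algebraMap (AL M) (LN M) a) (τ₀ : ℍ) :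
    ordAt τ₀ b.1 ≤ ordAt τ₀ a.1 := by
  let V : Valuation (FN M) (WithZero (Multiplicative ℤ)) :=
    ((lval ℂ).comap (wexpL M τ₀)).comap (Psi M).toRingHom
  have hVapp : ∀ g : FN M, V g = lval ℂ (wexpL M τ₀ (Psi M g)) := fun g => rfl
  have hVc : ∀ c : Kbar, V (algebraMap Kbar (FN M) c) ≤ 1 := by
    intro c
    rw [hVapp, AlgHom.commutes, wexpL_algebraMap_Kbar, ← HahnSeries.ofPowerSeries_C]
    exact Orders_lval_ofPowerSeries_le_one _
  have hVj : V (jF M) ≤ 1 := by
    have h1 : Psi M (jF M) = algebraMap (AL M) (LN M) (jd M 1 (one_dvd M)) := Psi_JF 1 (one_dvd M)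
    rw [hVapp, h1, wexpL_algebraMap]
    exact Orders_lval_ofPowerSeries_le_one _
  have hne : V.valuationSubring ≠ (S17.W.cusp M).toValuationSubring := by
    intro h
    apply jF_not_mem_cusp (M := M)
    rw [← h]
    exact (Valuation.mem_valuationSubring_iff V _).2 hVj
  have hVf : V f ≤ 1 := map_le_one_of_mem_L_single V hVc (S17.W.cusp M) m f hf hne
  rw [hVapp] at hVf
  have hab' := congrArg (wexpL M τ₀) hab
  rw [map_mul, wexpL_algebraMap, wexpL_algebraMap] at hab'
  rw [← order_wexp, ← order_wexp]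
  have hwb : wexp M τ₀ b ≠ 0 := by
    intro h
    exact hb (wexp_injective τ₀ (by rw [h, map_zero]))
  by_cases hwa : wexp M τ₀ a = 0
  · rw [hwa, PowerSeries.order_zero]
    exact le_top
  · have hle : lval ℂ (HahnSeries.ofPowerSeries ℤ ℂ (wexp M τ₀ a)) ≤
        lval ℂ (HahnSeries.ofPowerSeries ℤ ℂ (wexp M τ₀ b)) := by
      rw [← hab', map_mul]
      exact mul_le_of_le_one_left' hVf
    rw [Orders_lval_ofPowerSeries _ hwa, Orders_lval_ofPowerSeries _ hwb,
      WithZero.exp_le_exp] at hle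
    have hfa : (wexp M τ₀ a).order = (((wexp M τ₀ a).order.toNat : ℕ) : ℕ∞) := by
      rw [ENat.natCast_toNat]
      exact fun h => hwa (PowerSeries.order_eq_top.mp h)
    have hfb : (wexp M τ₀ b).order = (((wexp M τ₀ b).order.toNat : ℕ) : ℕ∞) := by
      rw [ENat.natCast_toNat]
      exact fun h => hwb (PowerSeries.order_eq_top.mp h)
    rw [hfa, hfb]
    have : (wexp M τ₀ b).order.toNat ≤ (wexp M τ₀ a).order.toNat := by omega
    exact_mod_cast this

/-- the conjugates by `γ ∉ Γ₀(M)` of an element of `L(m ∞)` have no pole at `i∞`. -/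
theorem coeff_texp_eq_zero_of_mem {m : ℕ} (f : FN M) (hf : f ∈ Linf M m) (γ : SL(2, ℤ))
    (hγ : γ ∉ Gamma0 M) (a b : AL M) (hb : b ≠ 0)
    (hab : (γ • Psi M f) * algebraMap (AL M) (LN M) b = algebraMap (AL M) (LN M) a)
    (k : ℤ) (hk : k < (texp M b).order) : (texp M a).coeff k = 0 := by
  have hV := map_le_one_of_mem_L_single (ordersCuspVal M γ) (ordersCuspVal_algebraMap_le γ)
    (S17.W.cusp M) m f hf (ordersCuspVal_valuationSubring_ne γ hγ)
  rw [ordersCuspVal_apply] at hV
  by_cases ha : a = 0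
  · rw [ha, map_zero]
    rfl
  have hta : texp M a ≠ 0 := fun h => ha (texp_injective (by rw [h, map_zero]))
  have htb : texp M b ≠ 0 := fun h => hb (texp_injective (by rw [h, map_zero]))
  have hE : texpL M (γ • Psi M f) * texp M b = texp M a := by
    rw [← texpL_algebraMap, ← texpL_algebraMap, ← map_mul, hab]
  have htf : texpL M (γ • Psi M f) ≠ 0 := by
    intro h
    rw [h, zero_mul] at hE
    exact hta hE.symm
  have hord := HahnSeries.order_mul htf htb
  rw [hE] at hord
  rw [lval_of_ne_zero htf, ← WithZero.exp_zero, WithZero.exp_le_exp] at hV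
  apply HahnSeries.coeff_eq_zero_of_lt_order
  omega

theorem bridge : Bridge := by
  intro M _ m f hf
  obtain ⟨a, b, hb0', hab'⟩ := IsFractionRing.div_surjective (A := AL M) (Psi M f)
  have hb0 : b ≠ 0 := nonZeroDivisors.ne_zero hb0'
  have hbm : algebraMap (AL M) (LN M) b ≠ 0 := by
    rw [Ne, map_eq_zero_iff _ algebraMap_AL_injective]
    exact hb0
  have hab : Psi M f * algebraMap (AL M) (LN M) b = algebraMap (AL M) (LN M) a := by
    rw [← hab', div_mul_cancel₀ _ hbm]
  obtain ⟨u, hu, hub⟩ := exists_mdiff_mul_eq (Stubs.mdiff_of_mem_AL a.2)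
    (Stubs.mdiff_of_mem_AL b.2) (coe_ne_zero_AL hb0) (ordAt_le_of_mem f hf a b hb0 hab)
  refine ⟨u, hu, fun γ hγ τ => ?_, ?_, fun γ hγ => ?_⟩
  · -- invariance
    have hinv : (fun τ => u (γ • τ)) - u = 0 := by
      have hγ' : γ⁻¹ ∈ CongruenceSubgroup.Gamma0 M := inv_mem hγ
      have h1 := smul_rel hab γ⁻¹
      rw [smul_Psi_of_mem_Gamma0 γ⁻¹ hγ' f] at h1
      have h2 : (γ⁻¹ • a) * b = a * (γ⁻¹ • b) := by
        apply algebraMap_AL_injective
        rw [map_mul, map_mul, ← h1, ← hab]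
        ring
      have h3 : ∀ τ, a.1 (γ • τ) * b.1 τ = a.1 τ * b.1 (γ • τ) := by
        intro τ
        have := congrArg (fun x : AL M => x.1 τ) h2
        simpa [smul_AL_apply] using this
      have hmd : MDiff (fun τ => u (γ • τ)) := by
        have := hu.comp (mdifferentiable_smul (g := (γ : GL (Fin 2) ℝ)) (by simp))
        exact this
      refine eq_zero_of_mul_eq_zero (v := ((γ⁻¹ • b) * b : AL M).1) (hmd.sub hu)
        (Stubs.mdiff_of_mem_AL ((γ⁻¹ • b) * b : AL M).2) ?_
        (coe_ne_zero_AL (mul_ne_zero (smul_ne_zero_AL hb0 _) hb0))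
      intro τ
      have e1 : ((γ⁻¹ • b) * b : AL M).1 τ = b.1 (γ • τ) * b.1 τ := by
        show (γ⁻¹ • b).1 τ * b.1 τ = _
        rw [smul_AL_apply, inv_inv]
      rw [e1]
      have := h3 τ
      rw [← hub, ← hub] at this
      simp only [Pi.sub_apply]
      linear_combination this
    have := congrFun hinv τ
    simpa only [Pi.sub_apply, Pi.zero_apply, sub_eq_zero] using this
  · -- the polar part
    have htb : texp M b ≠ 0 := fun h => hb0 (texp_injective (by rw [h, map_zero]))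
    refine bdd_sub_polar (hasTExp_texp a) (hasTExp_texp b) htb hub (f : LaurentSeries Kbar) ?_ m
      (fun k hk => coeff_eq_zero_of_lt hf k hk)
    have h1 : phi1 M f = qExpand Kbar M (f : LaurentSeries Kbar) := rfl
    rw [← h1, ← texpL_Psi, ← texpL_algebraMap, ← texpL_algebraMap, ← map_mul, hab]
  · -- the other cusps
    have hγ' : γ⁻¹ ∉ Gamma0 M := fun h => hγ (by simpa using inv_mem h)
    have hb1 : γ⁻¹ • b ≠ 0 := smul_ne_zero_AL hb0 _
    have htb : texp M (γ⁻¹ • b) ≠ 0 := fun h => hb1 (texp_injective (by rw [h, map_zero]))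
    refine bdd_of_hasTExp (hasTExp_texp (γ⁻¹ • a)) (hasTExp_texp (γ⁻¹ • b)) htb (fun τ => ?_)
      (fun k hk => coeff_texp_eq_zero_of_mem f hf γ⁻¹ hγ' _ _ hb1 (smul_rel hab γ⁻¹) k hk)
    rw [smul_AL_apply, smul_AL_apply, inv_inv]
    exact hub _

end Fermat.Agent.S44.F.Dim

end
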