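/-
S44 / F / Dual / Dim (helper227).  Node (G): `genusFF ℚ̄ (FN N) ≤ dim S₂(Γ₀(N))`.

`2^(2g) = #Pic⁰[2] = #W ≤ #Hom_{par,ell}(Γ₀(N), ℤ/2) = 2^(2 g')`.
-/
import Fermat.Agent.GAL.Mult.Package
import Fermat.Agent.GAL.Mult.Count

set_option autoImplicit false

namespace Fermat.Agent.S44.F.Dim

open AlgebraicCurve CongruenceSubgroup
open Fermat.Agent.S24 Fermat.Agent.S24.FF Fermat.Agent.S16.Lift Fermat.Agent.GAL Fermat.Agent.GAL.Mult

theorem genusFF_le_finrank_cuspForm (N : ℕ) [NeZero N] :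
    genusFF Kbar (FN N) ≤ Module.finrank ℂ (CuspForm (Gamma0 N) 2) := by
  have := Export.isFF1 N
  have : S27.NonConst Kbar (FN N) := ⟨⟨jF N, Formal.transcendental_jF N⟩⟩
  have hn : 0 < 2 := by norm_num
  obtain ⟨μ, -, hinj, hkills⟩ := exists_multHom N 2
  have hmem : ∀ w, μ w ∈ homPE N (ZMod 2) := fun w => Package.mem_homPE_of_kills (hkills w)
  have hfin : Finite (homPE N (ZMod 2)) := by
    apply Nat.finite_of_card_ne_zero
    rw [card_homPE N 2 hn]
    exact pow_ne_zero _ hn.ne'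
  let μ' : E.W N 2 → homPE N (ZMod 2) := fun w => ⟨μ w, hmem w⟩
  have hinj' : Function.Injective μ' := fun a b hab => hinj (congrArg Subtype.val hab)
  have h1 := Nat.card_le_card_of_injective μ' hinj'
  rw [card_W_eq_card_torsion N 2 hn, card_homPE N 2 hn,
    S27.card_torsion_general Kbar (FN N) 2 hn] at h1
  have h2 := (Nat.pow_le_pow_iff_right (by norm_num : 1 < 2)).1 h1
  omega

/-- the genus of `X₀(N)` is the dimension of `S₂(Γ₀(N))`. -/
theorem genusFF_eq_finrank_cuspForm (N : ℕ) [NeZero N] :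
    genusFF Kbar (FN N) = Module.finrank ℂ (CuspForm (Gamma0 N) 2) :=
  le_antisymm (genusFF_le_finrank_cuspForm N) (GenusBridge.finrank_cuspForm_le_genusFF N)

end Fermat.Agent.S44.F.Dim
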