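/-
S44 / F / Dual / Dim (helper227).  Node (LA), Mathlib only.

`ι : K → C` fields, `P ≤ K^m`, `S ≤ C^m` orthogonal to `ι(P)`, `m ≤ dim P + dim S`.  Then `ι ∘ y ∈ S` for
every `y ∈ K^m` orthogonal to `P`.
-/
import Mathlib

set_option autoImplicit false

namespace Fermat.Agent.S44.F.Dim

open Module

theorem la {K C : Type*} [Field K] [Field C] (ι : K →+* C) (m : ℕ)
    (P : Submodule K (Fin m → K)) (S : Submodule C (Fin m → C))
    (hperp : ∀ x ∈ P, ∀ s ∈ S, ∑ i, ι (x i) * s i = 0)
    (hdim : m ≤ finrank K P + finrank C S)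
    (y : Fin m → K) (hy : ∀ x ∈ P, ∑ i, x i * y i = 0) :
    (fun i => ι (y i)) ∈ S := by
  classical
  set r := finrank K P with hr
  let b : Basis (Fin r) K P := finBasis K P
  let B : Matrix (Fin r) (Fin m) K := Matrix.of fun j i => (b j : Fin m → K) i
  have hrow : LinearIndependent K B.row :=
    b.linearIndependent.map' P.subtype (Submodule.ker_subtype P)
  have hrank : B.rank = r := by simpa using hrow.rank_matrix
  have hsurj : Function.Surjective B.mulVec := by
    have h1 : LinearMap.range B.mulVecLin = ⊤ := by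
      apply Submodule.eq_top_of_finrank_eq
      have : finrank K (LinearMap.range B.mulVecLin) = B.rank := rfl
      rw [this, hrank]
      simp
    exact LinearMap.range_eq_top.1 h1
  obtain ⟨L, hL⟩ := Matrix.mulVec_surjective_iff_exists_right_inverse.1 hsurj
  let B' : Matrix (Fin r) (Fin m) C := B.map ι
  have hL' : B' * L.map ι = 1 := by
    rw [← Matrix.map_mul, hL]
    simp
  have hsurj' : Function.Surjective B'.mulVecLin :=
    Matrix.mulVec_surjective_iff_exists_right_inverse.2 ⟨_, hL'⟩
  have hQ : finrank C (LinearMap.ker B'.mulVecLin) + r = m := by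
    have h := LinearMap.finrank_range_add_finrank_ker B'.mulVecLin
    rw [LinearMap.range_eq_top.2 hsurj'] at h
    simp only [finrank_top, finrank_fintype_fun_eq_card, Fintype.card_fin] at h
    omega
  have hSQ : S ≤ LinearMap.ker B'.mulVecLin := by
    intro s hs
    rw [LinearMap.mem_ker]
    ext j
    exact hperp (b j) (b j).2 s hs
  have hEq : S = LinearMap.ker B'.mulVecLin :=
    Submodule.eq_of_le_of_finrank_le hSQ (by omega)
  rw [hEq, LinearMap.mem_ker]
  ext j
  show ∑ i, ι ((b j : Fin m → K) i) * ι (y i) = 0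
  have := hy (b j) (b j).2
  rw [← map_zero ι, ← this, map_sum]
  exact Finset.sum_congr rfl fun i _ => (map_mul ι _ _).symm

end Fermat.Agent.S44.F.Dim
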