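/-
S44 / F / Dual / Dim (helper227).  `DDim` from (BRIDGE):
(RR) + (G) + (TR: Sturm) + (LA) + (DI1 = `I1.const_term_vanishes` + BRIDGE).
-/
import Fermat.Agent.S44.F.Dual.Dim.LA
import Fermat.Agent.S44.F.Dual.Dim.RR
import Fermat.Agent.S44.F.Dual.Dim.Genus
import Fermat.Agent.S44.F.Dual.Dim.BridgeDef
import Fermat.Agent.S44.F.I1.Main

set_option autoImplicit false

noncomputable section

namespace Fermat.Agent.S44.F.Dim

open ModularCurve AlgebraicCurve Fermat.Agent.S24 Fermat.Agent.GAL Module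
open UpperHalfPlane CongruenceSubgroup ModularFormClass
open scoped MatrixGroups Manifold

/-- the coefficients `a_1, .., a_m` of a cusp form -/
def trunc (M m : ℕ) : CuspForm (Gamma0 M) 2 →ₗ[ℂ] (Fin m → ℂ) where
  toFun f i := qCoeff ⇑f ((i : ℕ) + 1)
  map_add' f g := by
    funext i
    exact S49.qCoeff_add f g _
  map_smul' c f := by
    funext i
    simp only [Pi.smul_apply, RingHom.id_apply, smul_eq_mul]
    rw [S49.qCoeff_smul]

/-- (TR) -/
theorem trunc_injective (M : ℕ) [NeZero M] (m : ℕ)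
    (hm : P2MW.S_CuspForm_intLattice_fg.W3WsD.sturmB M 2 ≤ m) :
    Function.Injective (trunc M m) := by
  rw [injective_iff_map_eq_zero]
  intro f hf
  apply S49.truncC_injective M
  rw [map_zero]
  funext i
  show qCoeff ⇑f (i : ℕ) = 0
  obtain ⟨i, hi⟩ := i
  cases i with
  | zero => exact S49.qCoeff_zero_index f
  | succ k => exact congrFun hf ⟨k, by omega⟩

/-- (DI1) -/
theorem di1 (hB : Bridge) {M : ℕ} [NeZero M] {m : ℕ} {b : FN M} (hb : b ∈ Linf M m)
    (f : CuspForm (Gamma0 M) 2) :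
    ∑ i : Fin m, iota (pp M m b i) * qCoeff ⇑f ((i : ℕ) + 1) = 0 := by
  obtain ⟨β, h1, h2, h3, h4⟩ := hB M m b hb
  have h := I1.const_term_vanishes M β h1 h2 m
    (fun n => iota ((b : LaurentSeries Kbar).coeff (-(n : ℤ)))) h3 h4 f
  rw [← h]
  have hI : Finset.Icc 1 m = Finset.Ico 1 (m + 1) := by
    ext n
    simp only [Finset.mem_Icc, Finset.mem_Ico]
    omega
  rw [hI, Finset.sum_Ico_eq_sum_range, Nat.add_sub_cancel,
    ← Fin.sum_univ_eq_sum_range (fun i => iota ((b : LaurentSeries Kbar).coeff (-((1 + i : ℕ) : ℤ))) *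
      qCoeff ⇑f (1 + i)) m]
  refine Finset.sum_congr rfl fun i _ => ?_
  rw [add_comm 1 (i : ℕ)]
  simp only [pp]
  push_cast
  rfl

theorem dDim_of_bridge (hB : Bridge) : DDim := by
  intro M _
  refine ⟨P2MW.S_CuspForm_intLattice_fg.W3WsD.sturmB M 2, fun m hm y hy => ?_⟩
  have hfd := S49.finiteDimensional_cuspForm (N := M)
  have h := la iota m ((Linf M m).map (ppLin M m)) (LinearMap.range (trunc M m)) ?_ ?_ y ?_
  · obtain ⟨f, hf⟩ := h
    exact ⟨f, fun i => congrFun hf i⟩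
  · rintro _ ⟨b, hb, rfl⟩ _ ⟨f, rfl⟩
    exact di1 hB hb f
  · rw [LinearMap.finrank_range_of_inj (trunc_injective M m hm)]
    have h1 := le_finrank_map_ppLin_add_genus M m
    have h2 := genusFF_le_finrank_cuspForm M
    omega
  · rintro _ ⟨b, hb, rfl⟩
    exact hy b hb

end Fermat.Agent.S44.F.Dim

end
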