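/-
S44 / F / Dual / Dim (helper227).  A second proof of `DDim` (the official one is `Fermat.Agent.S44.F.dDim` in
`S44/F/Dim/Main.lean`, helper102).  Nobody needs to import this file.
-/
import Fermat.Agent.S44.F.Dual.Dim.OfBridge
import Fermat.Agent.S44.F.Dual.Dim.Bridge

set_option autoImplicit false

namespace Fermat.Agent.S44.F.Dim

theorem dDim_alt : DDim := dDim_of_bridge bridge

end Fermat.Agent.S44.F.Dim
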